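/-
S55 / 14-LOC-H (helper28): model-independent successive approximation lemma
(Serre, Local Fields XII.3 Lemma 3; Cassels–Fröhlich VI.1.4).
Mathlib only.
-/
import Mathlib

namespace Fermat.Agent.S55.LocH28.Approx

open Finset

/-- Successive approximation: a complete separated filtered abelian group `A` with a
pair of filtration-preserving endomorphisms `f ∘ g = 0` whose graded pieces are exact
(`ker f ⊆ im g` modulo the next step) satisfies `ker f ⊆ im g` on `F 0`. -/
theorem exists_preimage_of_graded {A : Type*} [AddCommGroup A] (f g : A →+ A)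
    (hfg : ∀ x, f (g x) = 0) (F : ℕ → AddSubgroup A)
    (hg : ∀ n x, x ∈ F n → g x ∈ F n)
    (hsep : ∀ x, (∀ n, x ∈ F n) → x = 0)
    (hcompl : ∀ y : ℕ → A, (∀ n, y n ∈ F n) →
      ∃ s, ∀ n, s - ∑ i ∈ Finset.range n, y i ∈ F n)
    (hgr : ∀ n x, x ∈ F n → f x = 0 → ∃ y ∈ F n, x - g y ∈ F (n + 1)) :
    ∀ x ∈ F 0, f x = 0 → ∃ y ∈ F 0, g y = x := by
  intro x hx0 hfx
  -- choose the corrections
  choose! c hc1 hc2 using hgr
  -- sequence of remainders `r n ∈ F n` with `f (r n) = 0`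
  let r : ℕ → A := fun n => Nat.rec x (fun n rn => rn - g (c n rn)) n
  have hr0 : r 0 = x := rfl
  have hrs : ∀ n, r (n + 1) = r n - g (c n (r n)) := fun n => rfl
  have hr : ∀ n, r n ∈ F n ∧ f (r n) = 0 := by
    intro n
    induction n with
    | zero => exact ⟨hx0, hfx⟩
    | succ n ih =>
      refine ⟨?_, ?_⟩
      · rw [hrs]; exact hc2 n (r n) ih.1 ih.2
      · rw [hrs, map_sub, ih.2, hfg, sub_zero]
  let y : ℕ → A := fun n => c n (r n)
  have hy : ∀ n, y n ∈ F n := fun n => hc1 n (r n) (hr n).1 (hr n).2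
  obtain ⟨s, hs⟩ := hcompl y hy
  -- `x - g (∑_{i<n} y i) = r n`
  have hsum : ∀ n, x - g (∑ i ∈ Finset.range n, y i) = r n := by
    intro n
    induction n with
    | zero => simp [hr0]
    | succ n ih =>
      rw [Finset.sum_range_succ, map_add, ← sub_sub, ih, hrs]
  refine ⟨s, ?_, ?_⟩
  · have := hs 0
    simpa using this
  · have : x - g s = 0 := by
      apply hsep
      intro n
      have h1 : x - g s = r n - g (s - ∑ i ∈ Finset.range n, y i) := by
        rw [← hsum n, map_sub]; abel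
      rw [h1]
      exact (F n).sub_mem (hr n).1 (hg n _ (hs n))
    exact (sub_eq_zero.mp this).symm

/-- Multiplicative twin of `exists_preimage_of_graded`. -/
theorem exists_preimage_of_graded_mul {V : Type*} [CommGroup V] (f g : V →* V)
    (hfg : ∀ x, f (g x) = 1) (F : ℕ → Subgroup V)
    (hg : ∀ n x, x ∈ F n → g x ∈ F n)
    (hsep : ∀ x, (∀ n, x ∈ F n) → x = 1)
    (hcompl : ∀ y : ℕ → V, (∀ n, y n ∈ F n) →
      ∃ s, ∀ n, s / ∏ i ∈ Finset.range n, y i ∈ F n)
    (hgr : ∀ n x, x ∈ F n → f x = 1 → ∃ y ∈ F n, x / g y ∈ F (n + 1)) :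
    ∀ x ∈ F 0, f x = 1 → ∃ y ∈ F 0, g y = x := by
  intro x hx0 hfx
  have := exists_preimage_of_graded (A := Additive V) (MonoidHom.toAdditive f)
    (MonoidHom.toAdditive g) (fun x => hfg (Additive.toMul x))
    (fun n => (F n).toAddSubgroup)
    (fun n x hx => hg n _ hx) (fun x hx => hsep _ hx)
    (fun y hy => by
      obtain ⟨s, hs⟩ := hcompl (fun n => Additive.toMul (y n)) hy
      refine ⟨Additive.ofMul s, fun n => ?_⟩
      show Additive.toMul (Additive.ofMul s - ∑ i ∈ Finset.range n, y i) ∈ F n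
      rw [toMul_sub, toMul_sum]; exact hs n)
    (fun n x hx hfx => by
      obtain ⟨y, hy, hxy⟩ := hgr n (Additive.toMul x) hx hfx
      exact ⟨Additive.ofMul y, hy, hxy⟩)
    (Additive.ofMul x) hx0 hfx
  obtain ⟨y, hy, hgy⟩ := this
  exact ⟨Additive.toMul y, hy, hgy⟩

end Fermat.Agent.S55.LocH28.Approx
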