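/-
S55 / 14-LOC-H (helper28): the group `1 + I 0` for a complete multiplicative filtration
of a commutative ring with a finite group action; vanishing of `Ĥ^0` and `H^1` of a cyclic
group from the graded pieces.  Mathlib only.
-/
import Fermat.Agent.S55.LocH28.Approx

namespace Fermat.Agent.S55.LocH28.OnePlus

open Finset

variable {R : Type*} [CommRing R]

/-- A complete separated filtration `I 0 ⊇ I 1 ⊇ ...` of a commutative ring by additive
subgroups with `I i * I j ⊆ I (i+j+1)`. -/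
structure MulFilt (I : ℕ → AddSubgroup R) : Prop where
  anti : Antitone I
  mul : ∀ i j a b, a ∈ I i → b ∈ I j → a * b ∈ I (i + j + 1)
  sep : ∀ x, (∀ n, x ∈ I n) → x = 0
  compl : ∀ y : ℕ → R, (∀ n, y n ∈ I n) → ∃ s, ∀ n, s - ∑ i ∈ range n, y i ∈ I n

namespace MulFilt

variable {I : ℕ → AddSubgroup R} (h : MulFilt I)
include h

lemma mul_mem_right {n : ℕ} {a b : R} (ha : a ∈ I 0) (hb : b ∈ I n) : a * b ∈ I n :=
  h.anti (by omega) (h.mul 0 n a b ha hb)

lemma one_add_mul_mem {n : ℕ} {a b : R} (ha : a ∈ I 0) (hb : b ∈ I n) :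
    (1 + a) * b ∈ I n := by
  rw [add_mul, one_mul]; exact (I n).add_mem hb (h.mul_mem_right ha hb)

lemma pow_succ_mem {n : ℕ} {a : R} (ha : a ∈ I n) (k : ℕ) : a ^ (k + 1) ∈ I (n + k) := by
  induction k with
  | zero => simpa using ha
  | succ k ih => rw [pow_succ]; exact h.anti (by omega) (h.mul _ _ _ _ ih ha)

lemma exists_inv {n : ℕ} {a : R} (ha : a ∈ I n) : ∃ s ∈ I n, (1 + a) * (1 + s) = 1 := by
  have hy : ∀ k, (-a) ^ (k + 1) ∈ I (n + k) := fun k => h.pow_succ_mem ((I n).neg_mem ha) k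
  obtain ⟨s, hs⟩ := h.compl (fun k => (-a) ^ (k + 1)) (fun k => h.anti (by omega) (hy k))
  have hsum : ∀ m, ∑ i ∈ range m, (-a) ^ (i + 1) = ∑ i ∈ range (m + 1), (-a) ^ i - 1 := by
    intro m; rw [Finset.sum_range_succ']; simp
  have hsn : s ∈ I n := by
    have h1 : ∑ i ∈ range n, (-a) ^ (i + 1) ∈ I n :=
      (I n).sum_mem (fun k _ => h.anti (by omega) (hy k))
    have := (I n).add_mem (hs n) h1
    simpa using this
  refine ⟨s, hsn, ?_⟩
  have hE : (1 + a) * (1 + s) - 1 = 0 := by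
    apply h.sep
    intro m
    have hgeom : (1 + a) * ∑ i ∈ range (m + 1), (-a) ^ i = 1 - (-a) ^ (m + 1) := by
      have := mul_neg_geom_sum (-a) (m + 1)
      simpa using this
    have h2 : (1 + a) * (1 + s) - 1
        = (1 + a) * (s - ∑ i ∈ range m, (-a) ^ (i + 1)) - (-a) ^ (m + 1) := by
      rw [hsum m, ← sub_eq_zero]
      have : (1 + a) * (1 + s) - 1 -
          ((1 + a) * (s - (∑ i ∈ range (m + 1), (-a) ^ i - 1)) - (-a) ^ (m + 1))
          = (1 + a) * ∑ i ∈ range (m + 1), (-a) ^ i - (1 - (-a) ^ (m + 1)) := by ring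
      rw [this, hgeom, sub_self]
    rw [h2]
    exact (I m).sub_mem (h.one_add_mul_mem (h.anti (Nat.zero_le n) ha) (hs m))
      (h.anti (by omega) (hy m))
  exact sub_eq_zero.mp hE

/-- The subgroup `1 + I n` of `Rˣ`. -/
def onePlus (n : ℕ) : Subgroup Rˣ where
  carrier := {u | (u : R) - 1 ∈ I n}
  one_mem' := by simp
  mul_mem' := by
    intro u v hu hv
    simp only [Set.mem_ofPred_eq, Units.val_mul] at hu hv ⊢
    have : (u : R) * v - 1 = ((u : R) - 1) + ((v : R) - 1) + ((u : R) - 1) * ((v : R) - 1) := by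
      ring
    rw [this]
    exact (I n).add_mem ((I n).add_mem hu hv) (h.anti (by omega) (h.mul _ _ _ _ hu hv))
  inv_mem' := by
    intro u hu
    simp only [Set.mem_ofPred_eq] at hu ⊢
    obtain ⟨s, hs, hmul⟩ := h.exists_inv hu
    have hu' : (u : R) * (1 + s) = 1 := by
      have : (1 : R) + ((u : R) - 1) = u := by ring
      rwa [this] at hmul
    have : ((u⁻¹ : Rˣ) : R) = 1 + s := by
      have := congrArg (fun t => ((u⁻¹ : Rˣ) : R) * t) hu'
      simp only [Units.inv_mul_cancel_left, mul_one] at this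
      exact this.symm
    rw [this]; simpa using hs

lemma mem_onePlus {n : ℕ} {u : Rˣ} : u ∈ h.onePlus n ↔ (u : R) - 1 ∈ I n := Iff.rfl

lemma onePlus_anti : Antitone h.onePlus := fun _ _ hab _ hu => h.anti hab hu

/-- every `1 + a`, `a ∈ I n`, is (the value of) a unit in `1 + I n` -/
lemma exists_unit {n : ℕ} {a : R} (ha : a ∈ I n) : ∃ u ∈ h.onePlus n, (u : R) = 1 + a := by
  obtain ⟨s, hs, hmul⟩ := h.exists_inv ha
  refine ⟨⟨1 + a, 1 + s, hmul, by rw [mul_comm]; exact hmul⟩, ?_, rfl⟩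
  simpa [mem_onePlus] using ha

lemma mul_mem_of_onePlus {n : ℕ} {u : Rˣ} (hu : u ∈ h.onePlus 0) {b : R} (hb : b ∈ I n) :
    (u : R) * b ∈ I n := by
  have : (u : R) = 1 + ((u : R) - 1) := by ring
  rw [this]; exact h.one_add_mul_mem hu hb

/-- `u / v ∈ 1 + I n` as soon as `u - v ∈ I n` and `v ∈ 1 + I 0`. -/
lemma div_mem_onePlus {n : ℕ} {u v : Rˣ} (hv : v ∈ h.onePlus 0) (huv : (u : R) - v ∈ I n) :
    u / v ∈ h.onePlus n := by
  rw [mem_onePlus]
  have hv' : v⁻¹ ∈ h.onePlus 0 := (h.onePlus 0).inv_mem hv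
  have : ((u / v : Rˣ) : R) - 1 = ((v⁻¹ : Rˣ) : R) * ((u : R) - v) := by
    rw [div_eq_mul_inv, Units.val_mul, mul_sub, Units.inv_mul, mul_comm]
  rw [this]; exact h.mul_mem_of_onePlus hv' huv

lemma onePlus_sep (x : Rˣ) (hx : ∀ n, x ∈ h.onePlus n) : x = 1 := by
  have := h.sep _ hx
  exact Units.ext (by simpa using sub_eq_zero.mp this)

/-- convergence of infinite products in `1 + I 0`. -/
lemma onePlus_compl (y : ℕ → Rˣ) (hy : ∀ n, y n ∈ h.onePlus n) :
    ∃ s : Rˣ, ∀ n, s / ∏ i ∈ range n, y i ∈ h.onePlus n := by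
  set P : ℕ → Rˣ := fun n => ∏ i ∈ range n, y i with hP
  have hP0 : ∀ n, P n ∈ h.onePlus 0 := fun n =>
    (h.onePlus 0).prod_mem (fun i _ => h.onePlus_anti (Nat.zero_le i) (hy i))
  have hstep : ∀ n, ((P (n + 1) : Rˣ) : R) - P n ∈ I n := by
    intro n
    have : ((P (n + 1) : Rˣ) : R) - P n = (P n : R) * ((y n : R) - 1) := by
      simp only [hP, Finset.prod_range_succ, Units.val_mul]; ring
    rw [this]; exact h.mul_mem_of_onePlus (hP0 n) (hy n)
  obtain ⟨t, ht⟩ := h.compl (fun n => ((P (n + 1) : Rˣ) : R) - P n) hstep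
  have htel : ∀ n, ∑ i ∈ range n, (((P (i + 1) : Rˣ) : R) - P i) = (P n : R) - 1 := by
    intro n
    rw [Finset.sum_range_sub (fun i => ((P i : Rˣ) : R))]
    simp [hP]
  have ht0 : t ∈ I 0 := by simpa using ht 0
  obtain ⟨s, -, hs⟩ := h.exists_unit ht0
  refine ⟨s, fun n => h.div_mem_onePlus (hP0 n) ?_⟩
  have := ht n
  rw [htel n] at this
  rw [hs]
  have h2 : (1 + t) - (P n : R) = t - ((P n : R) - 1) := by ring
  rw [h2]; exact this

/-- `∏ (1 + c i) - 1 - ∑ c i ∈ I (n+1)` for `c i ∈ I n`. -/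
lemma prod_one_add_sub {ι : Type*} (s : Finset ι) (c : ι → R) {n : ℕ}
    (hc : ∀ i ∈ s, c i ∈ I n) :
    (∏ i ∈ s, (1 + c i) - 1 ∈ I n) ∧ (∏ i ∈ s, (1 + c i) - 1 - ∑ i ∈ s, c i ∈ I (n + 1)) := by
  classical
  induction s using Finset.induction_on with
  | empty => simp
  | insert i s hi ih =>
    have ih' := ih (fun j hj => hc j (Finset.mem_insert_of_mem hj))
    have hci := hc i (Finset.mem_insert_self i s)
    rw [Finset.prod_insert hi, Finset.sum_insert hi]
    refine ⟨?_, ?_⟩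
    · have : (1 + c i) * ∏ i ∈ s, (1 + c i) - 1
          = (1 + c i) * (∏ i ∈ s, (1 + c i) - 1) + c i := by ring
      rw [this]
      exact (I n).add_mem (h.one_add_mul_mem (h.anti (Nat.zero_le n) hci) ih'.1) hci
    · have : (1 + c i) * ∏ i ∈ s, (1 + c i) - 1 - (c i + ∑ i ∈ s, c i)
          = (∏ i ∈ s, (1 + c i) - 1 - ∑ i ∈ s, c i) + c i * (∏ i ∈ s, (1 + c i) - 1) := by ring
      rw [this]
      exact (I (n + 1)).add_mem ih'.2 (h.anti (by omega) (h.mul _ _ _ _ hci ih'.1))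

end MulFilt

section Action

variable {G : Type*} [Group G] [MulSemiringAction G R]

/-- the action of `τ : G` on the unit group -/
def act (τ : G) : Rˣ →* Rˣ := Units.map (MulSemiringAction.toRingHom G R τ : R →* R)

@[simp] lemma coe_act (τ : G) (u : Rˣ) : ((act τ u : Rˣ) : R) = τ • (u : R) := rfl

lemma act_mul (σ τ : G) (u : Rˣ) : act (σ * τ) u = act σ (act τ u) :=
  Units.ext (by simp [mul_smul])

/-- `u ↦ σ u / u` -/
def dsig (σ : G) : Rˣ →* Rˣ := act σ / MonoidHom.id Rˣ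

lemma dsig_apply (σ : G) (u : Rˣ) : dsig σ u = act σ u / u := rfl

variable [Fintype G]

variable (G) in
/-- the norm `u ↦ ∏ τ, τ u` on units -/
def normU : Rˣ →* Rˣ where
  toFun u := ∏ τ : G, act τ u
  map_one' := by simp
  map_mul' u v := by simp [Finset.prod_mul_distrib]

lemma normU_apply (u : Rˣ) : normU G u = ∏ τ : G, act τ u := rfl

lemma coe_normU (u : Rˣ) : ((normU G u : Rˣ) : R) = ∏ τ : G, τ • (u : R) := by
  rw [normU_apply, Units.coe_prod]; rfl

lemma act_normU (σ : G) (u : Rˣ) : act σ (normU G u) = normU G u := by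
  rw [normU_apply, map_prod]
  exact Fintype.prod_equiv (Equiv.mulLeft σ) _ _ (fun τ => (act_mul σ τ u).symm)

lemma normU_act (σ : G) (u : Rˣ) : normU G (act σ u) = normU G u := by
  rw [normU_apply, normU_apply]
  exact Fintype.prod_equiv (Equiv.mulRight σ) _ _ (fun τ => (act_mul τ σ u).symm)

variable {I : ℕ → AddSubgroup R} (h : MulFilt I)
include h

omit [Fintype G] in
lemma act_mem_onePlus (hG : ∀ n (τ : G) a, a ∈ I n → τ • a ∈ I n) {n : ℕ} (τ : G) {u : Rˣ}
    (hu : u ∈ h.onePlus n) : act τ u ∈ h.onePlus n := by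
  rw [MulFilt.mem_onePlus] at hu ⊢
  have : ((act τ u : Rˣ) : R) - 1 = τ • ((u : R) - 1) := by simp [smul_sub]
  rw [this]; exact hG n τ _ hu

lemma normU_mem_onePlus (hG : ∀ n (τ : G) a, a ∈ I n → τ • a ∈ I n) {n : ℕ} {u : Rˣ}
    (hu : u ∈ h.onePlus n) : normU G u ∈ h.onePlus n :=
  (h.onePlus n).prod_mem (fun τ _ => act_mem_onePlus h hG τ hu)

/-- `N (1 + b) ≡ 1 + Tr b` modulo `I (n+1)` for `b ∈ I n`. -/
lemma normU_sub_trace (hG : ∀ n (τ : G) a, a ∈ I n → τ • a ∈ I n) {n : ℕ} {u : Rˣ}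
    (hu : u ∈ h.onePlus n) :
    ((normU G u : Rˣ) : R) - 1 - ∑ τ : G, τ • ((u : R) - 1) ∈ I (n + 1) := by
  have := (h.prod_one_add_sub (Finset.univ : Finset G) (fun τ => τ • ((u : R) - 1))
    (fun τ _ => hG n τ _ hu)).2
  rw [coe_normU]
  convert this using 3
  apply Finset.prod_congr rfl
  intro τ _
  simp [smul_sub]

/-- Vanishing of `Ĥ^0`: invariants of `1 + I 0` are norms. -/
theorem onePlus_H0 (σ : G) (hG : ∀ n (τ : G) a, a ∈ I n → τ • a ∈ I n)
    (hgr0 : ∀ n a, a ∈ I n → σ • a = a → ∃ b ∈ I n, a - ∑ τ : G, τ • b ∈ I (n + 1)) :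
    ∀ x ∈ h.onePlus 0, act σ x = x → ∃ y ∈ h.onePlus 0, normU G y = x := by
  intro x hx hσx
  refine Approx.exists_preimage_of_graded_mul (dsig σ) (normU G) ?_ h.onePlus ?_
    h.onePlus_sep h.onePlus_compl ?_ x hx ?_
  · intro u; rw [dsig_apply, act_normU, div_self']
  · intro n u hu; exact normU_mem_onePlus h hG hu
  · intro n u hu hfu
    have hσu : act σ u = u := by
      rw [dsig_apply, div_eq_one] at hfu; exact hfu
    have hσa : σ • ((u : R) - 1) = (u : R) - 1 := by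
      have := congrArg (fun v : Rˣ => (v : R)) hσu
      simp only [coe_act] at this
      simp [smul_sub, this]
    obtain ⟨b, hb, hab⟩ := hgr0 n _ hu hσa
    obtain ⟨y, hy, hyb⟩ := h.exists_unit hb
    refine ⟨y, hy, h.div_mem_onePlus (normU_mem_onePlus h hG
      (h.onePlus_anti (Nat.zero_le n) hy)) ?_⟩
    have h1 := normU_sub_trace h hG hy
    have hyb' : (y : R) - 1 = b := by rw [hyb]; ring
    rw [hyb'] at h1
    have : (u : R) - (normU G y : Rˣ) = ((u : R) - 1 - ∑ τ : G, τ • b)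
        - (((normU G y : Rˣ) : R) - 1 - ∑ τ : G, τ • b) := by ring
    rw [this]; exact (I (n + 1)).sub_mem hab h1
  · rw [dsig_apply, hσx, div_self']

/-- Vanishing of `H^1`: norm-one elements of `1 + I 0` are of the form `σ y / y`. -/
theorem onePlus_H1 (σ : G) (hG : ∀ n (τ : G) a, a ∈ I n → τ • a ∈ I n)
    (hgr1 : ∀ n a, a ∈ I n → ∑ τ : G, τ • a ∈ I (n + 1) →
      ∃ b ∈ I n, a - (σ • b - b) ∈ I (n + 1)) :
    ∀ x ∈ h.onePlus 0, normU G x = 1 → ∃ y ∈ h.onePlus 0, act σ y / y = x := by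
  intro x hx hNx
  refine Approx.exists_preimage_of_graded_mul (normU G) (dsig σ) ?_ h.onePlus ?_
    h.onePlus_sep h.onePlus_compl ?_ x hx hNx
  · intro u; rw [dsig_apply, map_div, normU_act, div_self']
  · intro n u hu
    exact (h.onePlus n).div_mem (act_mem_onePlus h hG σ hu) hu
  · intro n u hu hNu
    have h1 := normU_sub_trace h hG hu
    rw [hNu] at h1
    have htr : ∑ τ : G, τ • ((u : R) - 1) ∈ I (n + 1) := by
      have := (I (n + 1)).neg_mem h1
      simpa using this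
    obtain ⟨b, hb, hab⟩ := hgr1 n _ hu htr
    obtain ⟨y, hy, hyb⟩ := h.exists_unit hb
    have hy0 := h.onePlus_anti (Nat.zero_le n) hy
    refine ⟨y, hy, ?_⟩
    -- u / (σ y / y) = u * y / σ y
    have hrew : u / dsig σ y = (u * y) / act σ y := by
      rw [dsig_apply, div_div_eq_mul_div]
    rw [hrew]
    refine h.div_mem_onePlus (act_mem_onePlus h hG σ hy0) ?_
    have : ((u * y : Rˣ) : R) - (act σ y : Rˣ)
        = (((u : R) - 1) - (σ • b - b)) + ((u : R) - 1) * b := by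
      simp only [Units.val_mul, coe_act, hyb, smul_add, smul_one]; ring
    rw [this]
    exact (I (n + 1)).add_mem hab (h.anti (by omega) (h.mul _ _ _ _ hu hb))

end Action

end Fermat.Agent.S55.LocH28.OnePlus
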