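/-
S55 / 14-LOC-H (helper28): the normal-basis lattice in a finite Galois extension of
nonarchimedean local fields, and the cohomologically trivial open subgroup
`V = 1 + π^m Λ` of the unit group.  Mathlib only.
-/
import Fermat.Agent.S55.LocH28.OnePlus

namespace Fermat.Agent.S55.LocH28.Lattice

open IsGalois Finset

set_option linter.unusedSectionVars false

/-- The group of units of norm one of a normed field. -/
def unitBall (F : Type*) [NormedField F] : Subgroup Fˣ where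
  carrier := {u | ‖(u : F)‖ = 1}
  one_mem' := by simp
  mul_mem' := by
    intro u v hu hv
    simp only [Set.mem_ofPred_eq] at hu hv ⊢
    rw [Units.val_mul, norm_mul, hu, hv, one_mul]
  inv_mem' := by
    intro u hu
    simp only [Set.mem_ofPred_eq] at hu ⊢
    rw [Units.val_inv_eq_inv_val, norm_inv, hu, inv_one]

lemma mem_unitBall {F : Type*} [NormedField F] {u : Fˣ} : u ∈ unitBall F ↔ ‖(u : F)‖ = 1 :=
  Iff.rfl

variable (K L : Type*) [NontriviallyNormedField K] [IsUltrametricDist K] [ProperSpace K]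
  [NormedField L] [NormedAlgebra K L] [FiniteDimensional K L]

/-- Every `K`-automorphism of `L` is an isometry (uniqueness of the extension of the norm). -/
theorem norm_algEquiv (τ : L ≃ₐ[K] L) (x : L) : ‖τ x‖ = ‖x‖ := by
  rw [NormedAlgebra.norm_eq_spectralNorm K, NormedAlgebra.norm_eq_spectralNorm K,
    ← spectralNorm_eq_of_equiv]

include K in
/-- `L` is ultrametric. -/
theorem isUltrametricDist : IsUltrametricDist L :=
  IsUltrametricDist.isUltrametricDist_of_isNonarchimedean_norm (fun x y => by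
    have := isNonarchimedean_spectralNorm (K := K) (L := L) x y
    rw [← NormedAlgebra.norm_eq_spectralNorm K, ← NormedAlgebra.norm_eq_spectralNorm K,
      ← NormedAlgebra.norm_eq_spectralNorm K] at this
    exact this)

include K in
omit [IsUltrametricDist K] in
theorem completeSpace : CompleteSpace L := FiniteDimensional.complete K L

include K in
omit [IsUltrametricDist K] in
theorem properSpace : ProperSpace L := FiniteDimensional.proper K L

variable [IsGalois K L]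

/-- The lattice `π^k Λ`, `Λ` the `O_K`-span of the normal basis. -/
def latt (π : K) (k : ℕ) : AddSubgroup L where
  carrier := {x | ∀ τ, ‖(normalBasis K L).repr x τ‖ ≤ ‖π‖ ^ k}
  zero_mem' := by intro τ; simp
  add_mem' := by
    intro x y hx hy τ
    rw [map_add, Finsupp.add_apply]
    exact (IsUltrametricDist.norm_add_le_max _ _).trans (max_le (hx τ) (hy τ))
  neg_mem' := by
    intro x hx τ
    rw [map_neg, Finsupp.neg_apply, norm_neg]
    exact hx τ

variable {K L}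

omit [ProperSpace K] in
lemma mem_latt {π : K} {k : ℕ} {x : L} :
    x ∈ latt K L π k ↔ ∀ τ, ‖(normalBasis K L).repr x τ‖ ≤ ‖π‖ ^ k := Iff.rfl

omit [IsUltrametricDist K] [ProperSpace K] in
lemma algEquiv_normalBasis (τ ρ : L ≃ₐ[K] L) :
    τ (normalBasis K L ρ) = normalBasis K L (τ * ρ) := by
  rw [normalBasis_apply ρ, normalBasis_apply (τ * ρ)]; rfl

omit [IsUltrametricDist K] [ProperSpace K] in
lemma repr_algEquiv (τ ρ : L ≃ₐ[K] L) (x : L) :
    (normalBasis K L).repr (τ x) ρ = (normalBasis K L).repr x (τ⁻¹ * ρ) := by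
  set b := normalBasis K L with hb
  have hx : τ x = ∑ ρ, (b.repr x (τ⁻¹ * ρ)) • b ρ := by
    conv_lhs => rw [← b.sum_repr x]
    rw [map_sum]
    simp only [map_smul, hb, algEquiv_normalBasis]
    exact Fintype.sum_equiv (Equiv.mulLeft τ) _ _ (fun ρ => by simp)
  rw [hx, b.repr_sum_self]

omit [ProperSpace K] in
lemma algEquiv_mem_latt {π : K} {k : ℕ} (τ : L ≃ₐ[K] L) {x : L} (hx : x ∈ latt K L π k) :
    τ x ∈ latt K L π k := by
  intro ρ
  rw [repr_algEquiv]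
  exact hx _

omit [ProperSpace K] in
lemma latt_anti {π : K} (hπ1 : ‖π‖ ≤ 1) : Antitone (latt K L π) := by
  intro a b hab x hx τ
  exact (hx τ).trans (pow_le_pow_of_le_one (norm_nonneg _) hπ1 hab)

/-- elements of `π^k Λ` are small. -/
lemma norm_le_of_mem_latt {π : K} {k : ℕ} {x : L} (hx : x ∈ latt K L π k) :
    ‖x‖ ≤ ‖π‖ ^ k * ‖normalBasis K L 1‖ := by
  have := isUltrametricDist K L
  rw [← (normalBasis K L).sum_repr x]
  refine IsUltrametricDist.norm_sum_le_of_forall_le_of_nonneg (by positivity) ?_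
  intro ρ _
  rw [norm_smul, normalBasis_apply ρ, norm_algEquiv]
  exact mul_le_mul_of_nonneg_right (hx ρ) (norm_nonneg _)

omit [IsUltrametricDist K] in
/-- coordinates are bounded by the norm. -/
lemma exists_coord_bound :
    ∃ C : ℝ, 0 < C ∧ ∀ (x : L) (ρ : L ≃ₐ[K] L), ‖(normalBasis K L).repr x ρ‖ ≤ C * ‖x‖ := by
  set b := normalBasis K L
  let f : (L ≃ₐ[K] L) → (L →L[K] K) := fun ρ => LinearMap.toContinuousLinearMap (b.coord ρ)
  refine ⟨∑ ρ, ‖f ρ‖ + 1, by positivity, fun x ρ => ?_⟩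
  have h1 : ‖f ρ x‖ ≤ ‖f ρ‖ * ‖x‖ := (f ρ).le_opNorm x
  have h2 : ‖f ρ‖ ≤ ∑ ρ, ‖f ρ‖ + 1 := by
    have := Finset.single_le_sum (f := fun ρ => ‖f ρ‖) (fun i _ => norm_nonneg _)
      (Finset.mem_univ ρ)
    linarith
  calc ‖b.repr x ρ‖ = ‖f ρ x‖ := rfl
    _ ≤ ‖f ρ‖ * ‖x‖ := h1
    _ ≤ (∑ ρ, ‖f ρ‖ + 1) * ‖x‖ := mul_le_mul_of_nonneg_right h2 (norm_nonneg _)

omit [IsUltrametricDist K] in
lemma continuous_repr (ρ : L ≃ₐ[K] L) :
    Continuous (fun x : L => (normalBasis K L).repr x ρ) :=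
  LinearMap.continuous_of_finiteDimensional ((normalBasis K L).coord ρ)

lemma isClosed_latt (π : K) (k : ℕ) : IsClosed ((latt K L π k : AddSubgroup L) : Set L) := by
  have : ((latt K L π k : AddSubgroup L) : Set L)
      = ⋂ ρ : L ≃ₐ[K] L, {x | ‖(normalBasis K L).repr x ρ‖ ≤ ‖π‖ ^ k} := by
    ext x; simp [latt]
  rw [this]
  exact isClosed_iInter (fun ρ => isClosed_le (continuous_repr ρ).norm continuous_const)

omit [ProperSpace K] in
lemma smul_basis_mem_latt {π : K} {k : ℕ} {c : K} (hc : ‖c‖ ≤ ‖π‖ ^ k) (ρ : L ≃ₐ[K] L) :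
    c • normalBasis K L ρ ∈ latt K L π k := by
  classical
  intro τ
  rw [map_smul, Module.Basis.repr_self, Finsupp.smul_apply, Finsupp.single_apply]
  split_ifs
  · simpa using hc
  · simp

variable (K L) in
/-- A choice of the parameters of the construction. -/
structure Params where
  /-- a nonzero element of the maximal ideal of `K` -/
  π : K
  hπ0 : 0 < ‖π‖
  hπ1 : ‖π‖ < 1
  /-- bound for the coordinate functionals -/
  C : ℝ
  hC0 : 0 < C
  hC : ∀ (x : L) (ρ : L ≃ₐ[K] L), ‖(normalBasis K L).repr x ρ‖ ≤ C * ‖x‖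
  /-- the shift -/
  m : ℕ
  hm1 : ‖π‖ ^ m * ‖normalBasis K L 1‖ < 1
  hm2 : C * ‖normalBasis K L 1‖ ^ 2 * ‖π‖ ^ m ≤ ‖π‖

omit [IsUltrametricDist K] in
variable (K L) in
theorem exists_params : Nonempty (Params K L) := by
  obtain ⟨π, hπ0, hπ1⟩ := NormedField.exists_norm_lt_one K
  obtain ⟨C, hC0, hC⟩ := exists_coord_bound (K := K) (L := L)
  set C₁ := ‖normalBasis K L 1‖ with hC₁
  have hC₁0 : 0 ≤ C₁ := norm_nonneg _
  set Q : ℝ := (C₁ + 1) ^ 2 * (C + 1) with hQ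
  have hQ1 : 1 ≤ Q := by
    have h1 : 1 ≤ (C₁ + 1) ^ 2 := one_le_pow₀ (by linarith)
    have h2 : 1 ≤ C + 1 := by linarith
    calc (1 : ℝ) = 1 * 1 := by ring
      _ ≤ (C₁ + 1) ^ 2 * (C + 1) := mul_le_mul h1 h2 (by norm_num) (by positivity)
  have hQpos : 0 < Q := by linarith
  obtain ⟨m, hm⟩ := exists_pow_lt_of_lt_one (div_pos hπ0 hQpos) hπ1
  have hmQ : ‖π‖ ^ m * Q < ‖π‖ := by rwa [lt_div_iff₀ hQpos] at hm
  have hpm : 0 ≤ ‖π‖ ^ m := by positivity
  have hC₁Q : C₁ ≤ Q := by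
    have : C₁ ≤ (C₁ + 1) ^ 2 := by nlinarith
    calc C₁ ≤ (C₁ + 1) ^ 2 := this
      _ = (C₁ + 1) ^ 2 * 1 := by ring
      _ ≤ (C₁ + 1) ^ 2 * (C + 1) := by
        apply mul_le_mul_of_nonneg_left _ (by positivity); linarith
  have hCQ : C * C₁ ^ 2 ≤ Q := by
    have h1 : C₁ ^ 2 ≤ (C₁ + 1) ^ 2 := by nlinarith
    calc C * C₁ ^ 2 = C₁ ^ 2 * C := by ring
      _ ≤ (C₁ + 1) ^ 2 * (C + 1) := mul_le_mul h1 (by linarith) hC0.le (by positivity)
  refine ⟨⟨π, hπ0, hπ1, C, hC0, hC, m, ?_, ?_⟩⟩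
  · calc ‖π‖ ^ m * C₁ ≤ ‖π‖ ^ m * Q := mul_le_mul_of_nonneg_left hC₁Q hpm
      _ < ‖π‖ := hmQ
      _ < 1 := hπ1
  · calc C * C₁ ^ 2 * ‖π‖ ^ m = ‖π‖ ^ m * (C * C₁ ^ 2) := by ring
      _ ≤ ‖π‖ ^ m * Q := mul_le_mul_of_nonneg_left hCQ hpm
      _ ≤ ‖π‖ := hmQ.le

namespace Params

variable (P : Params K L)

/-- The filtration `I n = π^(n+m) Λ`. -/
def I (n : ℕ) : AddSubgroup L := latt K L P.π (n + P.m)

omit [ProperSpace K] in
lemma I_anti : Antitone P.I := fun _ _ hab =>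
  latt_anti P.hπ1.le (Nat.add_le_add_right hab _)

lemma norm_le_of_mem_I {n : ℕ} {x : L} (hx : x ∈ P.I n) :
    ‖x‖ ≤ ‖P.π‖ ^ (n + P.m) * ‖normalBasis K L 1‖ := norm_le_of_mem_latt hx

lemma norm_lt_one_of_mem_I {n : ℕ} {x : L} (hx : x ∈ P.I n) : ‖x‖ < 1 := by
  refine (P.norm_le_of_mem_I hx).trans_lt (lt_of_le_of_lt ?_ P.hm1)
  apply mul_le_mul_of_nonneg_right _ (norm_nonneg _)
  exact pow_le_pow_of_le_one (norm_nonneg _) P.hπ1.le (Nat.le_add_left _ _)

theorem mulFilt : OnePlus.MulFilt P.I where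
  anti := P.I_anti
  mul := by
    intro i j a b ha hb ρ
    have h1 := P.norm_le_of_mem_I ha
    have h2 := P.norm_le_of_mem_I hb
    set C₁ := ‖normalBasis K L 1‖
    have hπ : 0 ≤ ‖P.π‖ := norm_nonneg _
    calc ‖(normalBasis K L).repr (a * b) ρ‖ ≤ P.C * ‖a * b‖ := P.hC _ _
      _ = P.C * (‖a‖ * ‖b‖) := by rw [norm_mul]
      _ ≤ P.C * ((‖P.π‖ ^ (i + P.m) * C₁) * (‖P.π‖ ^ (j + P.m) * C₁)) := by
        apply mul_le_mul_of_nonneg_left _ P.hC0.le
        exact mul_le_mul h1 h2 (norm_nonneg _) (by positivity)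
      _ = (P.C * C₁ ^ 2 * ‖P.π‖ ^ P.m) * ‖P.π‖ ^ (i + j + P.m) := by ring
      _ ≤ ‖P.π‖ * ‖P.π‖ ^ (i + j + P.m) :=
        mul_le_mul_of_nonneg_right P.hm2 (by positivity)
      _ = ‖P.π‖ ^ (i + j + 1 + P.m) := by ring
  sep := by
    intro x hx
    apply (normalBasis K L).repr.map_eq_zero_iff.mp
    ext ρ
    rw [Finsupp.zero_apply, ← norm_le_zero_iff]
    have hlim : Filter.Tendsto (fun n : ℕ => ‖P.π‖ ^ (n + P.m)) Filter.atTop (nhds 0) := by
      have := tendsto_pow_atTop_nhds_zero_of_lt_one (norm_nonneg P.π) P.hπ1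
      exact this.comp (Filter.tendsto_add_atTop_nat P.m)
    exact ge_of_tendsto' hlim (fun n => hx n ρ)
  compl := by
    intro y hy
    have := completeSpace K L
    set C₁ := ‖normalBasis K L 1‖
    have hbound : ∀ n, ‖y n‖ ≤ C₁ * ‖P.π‖ ^ n := by
      intro n
      refine (P.norm_le_of_mem_I (hy n)).trans ?_
      rw [mul_comm]
      apply mul_le_mul_of_nonneg_left _ (norm_nonneg _)
      exact pow_le_pow_of_le_one (norm_nonneg _) P.hπ1.le (Nat.le_add_right _ _)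
    have hsum : Summable y :=
      Summable.of_norm_bounded
        ((summable_geometric_of_lt_one (norm_nonneg _) P.hπ1).mul_left C₁) hbound
    refine ⟨∑' i, y i, fun n => ?_⟩
    have h1 := hsum.sum_add_tsum_nat_add n
    have h2 : ∑' i, y i - ∑ i ∈ Finset.range n, y i = ∑' i, y (i + n) := by
      rw [← h1]; abel
    rw [h2]
    exact tsum_mem (isClosed_latt P.π (n + P.m))
      (fun i => P.I_anti (Nat.le_add_left n i) (hy (i + n)))

lemma hG : ∀ n (τ : L ≃ₐ[K] L) a, a ∈ P.I n → τ • a ∈ P.I n :=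
  fun _ τ _ ha => algEquiv_mem_latt τ ha

/-- graded pieces: invariants are traces. -/
lemma hgr0 (σ : L ≃ₐ[K] L) (hσ : ∀ τ, τ ∈ Subgroup.zpowers σ) :
    ∀ n a, a ∈ P.I n → σ • a = a →
      ∃ b ∈ P.I n, a - ∑ τ : L ≃ₐ[K] L, τ • b ∈ P.I (n + 1) := by
  intro n a ha hσa
  have hfix : ∀ τ : L ≃ₐ[K] L, τ a = a := by
    intro τ
    have : Subgroup.zpowers σ ≤ MulAction.stabilizer (L ≃ₐ[K] L) a := by
      rw [Subgroup.zpowers_le]; exact hσa
    exact this (hσ τ)
  have hc : ∀ ρ, (normalBasis K L).repr a ρ = (normalBasis K L).repr a 1 := by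
    intro ρ
    have := repr_algEquiv ρ ρ a
    rw [hfix ρ, inv_mul_cancel] at this
    exact this
  refine ⟨(normalBasis K L).repr a 1 • normalBasis K L 1, smul_basis_mem_latt (ha 1) 1, ?_⟩
  have : ∑ τ : L ≃ₐ[K] L, τ • ((normalBasis K L).repr a 1 • normalBasis K L 1) = a := by
    conv_rhs => rw [← (normalBasis K L).sum_repr a]
    apply Finset.sum_congr rfl
    intro τ _
    rw [AlgEquiv.smul_def, map_smul, ← normalBasis_apply τ, hc τ]
  rw [this, sub_self]; exact zero_mem _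

lemma exists_sub_eq (σ : L ≃ₐ[K] L) (hσ : ∀ τ, τ ∈ Subgroup.zpowers σ) (n : ℕ)
    (τ : L ≃ₐ[K] L) {y : L} (hy : y ∈ P.I n) : ∃ z ∈ P.I n, τ y - y = σ z - z := by
  have aux : ∀ k : ℕ, ∃ z ∈ P.I n, (σ ^ k) y - y = σ z - z := by
    intro k
    induction k with
    | zero => exact ⟨0, zero_mem _, by simp⟩
    | succ k ih =>
      obtain ⟨z, hz, hzeq⟩ := ih
      refine ⟨(σ ^ k) y + z, (P.I n).add_mem (algEquiv_mem_latt _ hy) hz, ?_⟩
      rw [pow_succ', AlgEquiv.mul_apply, map_add]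
      have : σ ((σ ^ k) y) + σ z - ((σ ^ k) y + z)
          = σ ((σ ^ k) y) - (σ ^ k) y + (σ z - z) := by abel
      rw [this, ← hzeq]; abel
  obtain ⟨k, hk⟩ := mem_powers_iff_mem_zpowers.mpr (hσ τ)
  have hk' : σ ^ k = τ := hk
  rw [← hk']
  exact aux k

/-- graded pieces: trace-zero elements are of the form `σ b - b`. -/
lemma hgr1 (σ : L ≃ₐ[K] L) (hσ : ∀ τ, τ ∈ Subgroup.zpowers σ) :
    ∀ n a, a ∈ P.I n → ∑ τ : L ≃ₐ[K] L, τ • a ∈ P.I (n + 1) →
      ∃ b ∈ P.I n, a - (σ • b - b) ∈ P.I (n + 1) := by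
  intro n a ha htr
  have hy : ∀ τ, (normalBasis K L).repr a τ • normalBasis K L 1 ∈ P.I n :=
    fun τ => smul_basis_mem_latt (ha τ) 1
  choose z hz hzeq using fun τ => P.exists_sub_eq σ hσ n τ (hy τ)
  refine ⟨∑ τ, z τ, (P.I n).sum_mem (fun τ _ => hz τ), ?_⟩
  have hS : a - (σ • (∑ τ, z τ) - ∑ τ, z τ)
      = (∑ τ, (normalBasis K L).repr a τ) • normalBasis K L 1 := by
    have ha' : a = ∑ τ : L ≃ₐ[K] L, τ ((normalBasis K L).repr a τ • normalBasis K L 1) := by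
      conv_lhs => rw [← (normalBasis K L).sum_repr a]
      apply Finset.sum_congr rfl
      intro τ _
      rw [map_smul, ← normalBasis_apply τ]
    have h1 : σ • (∑ τ, z τ) - ∑ τ, z τ
        = ∑ τ, (τ ((normalBasis K L).repr a τ • normalBasis K L 1)
          - (normalBasis K L).repr a τ • normalBasis K L 1) := by
      rw [AlgEquiv.smul_def, map_sum, ← Finset.sum_sub_distrib]
      exact Finset.sum_congr rfl (fun τ _ => (hzeq τ).symm)
    rw [h1, Finset.sum_sub_distrib, ← ha', Finset.sum_smul]; abel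
  rw [hS]
  apply smul_basis_mem_latt _ 1
  have h2 := htr 1
  have h3 : (normalBasis K L).repr (∑ τ : L ≃ₐ[K] L, τ • a) 1
      = ∑ τ, (normalBasis K L).repr a τ := by
    rw [map_sum, Finsupp.finsetSum_apply]
    simp only [AlgEquiv.smul_def, repr_algEquiv, mul_one]
    exact Fintype.sum_equiv (Equiv.inv _) _ _ (fun τ => rfl)
  rw [h3] at h2
  exact h2

/-- The cohomologically trivial open subgroup `V = 1 + π^m Λ`. -/
def V : Subgroup Lˣ := P.mulFilt.onePlus 0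

lemma mem_V {u : Lˣ} : u ∈ P.V ↔ (u : L) - 1 ∈ P.I 0 := Iff.rfl

lemma V_le_unitBall : P.V ≤ unitBall L := by
  intro u hu
  have := isUltrametricDist K L
  have h1 : ‖(u : L) - 1‖ < 1 := P.norm_lt_one_of_mem_I hu
  rw [mem_unitBall]
  have h2 : (u : L) = ((u : L) - 1) + 1 := by ring
  rw [h2, IsUltrametricDist.norm_add_eq_max_of_norm_ne_norm (by rw [norm_one]; exact h1.ne),
    norm_one, max_eq_right h1.le]

/-- `I 0` contains a ball. -/
lemma mem_I_zero_of_norm_le {x : L} (hx : ‖x‖ ≤ ‖P.π‖ ^ P.m / P.C) : x ∈ P.I 0 := by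
  intro ρ
  rw [zero_add]
  calc ‖(normalBasis K L).repr x ρ‖ ≤ P.C * ‖x‖ := P.hC _ _
    _ ≤ P.C * (‖P.π‖ ^ P.m / P.C) := mul_le_mul_of_nonneg_left hx P.hC0.le
    _ = ‖P.π‖ ^ P.m := by field_simp [P.hC0.ne']

lemma delta_pos : 0 < ‖P.π‖ ^ P.m / P.C := div_pos (pow_pos P.hπ0 _) P.hC0

lemma isOpen_I_zero : IsOpen ((P.I 0 : AddSubgroup L) : Set L) := by
  apply AddSubgroup.isOpen_of_mem_nhds (g := 0)
  refine Filter.mem_of_superset (Metric.closedBall_mem_nhds (0 : L) P.delta_pos) ?_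
  intro x hx
  exact P.mem_I_zero_of_norm_le (by simpa using hx)

lemma isOpen_V : IsOpen (P.V : Set Lˣ) := by
  have : (P.V : Set Lˣ) = (fun u : Lˣ => (u : L) - 1) ⁻¹' ((P.I 0 : AddSubgroup L) : Set L) := rfl
  rw [this]
  exact P.isOpen_I_zero.preimage (Units.continuous_val.sub continuous_const)

lemma smul_mem_V (τ : L ≃ₐ[K] L) {u : Lˣ} (hu : u ∈ P.V) : τ • u ∈ P.V :=
  OnePlus.act_mem_onePlus P.mulFilt P.hG τ hu

/-- `V` has finite index in the unit group. -/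
lemma finite_quot_V : Finite (↥(unitBall L) ⧸ P.V.subgroupOf (unitBall L)) := by
  have := isUltrametricDist K L
  have := properSpace K L
  obtain ⟨t, -, htfin, hcover⟩ :=
    finite_cover_balls_of_compact (isCompact_closedBall (0 : L) 1) P.delta_pos
  have hex : ∀ u : unitBall L, ∃ c : t, ‖((u : Lˣ) : L) - c‖ < ‖P.π‖ ^ P.m / P.C := by
    intro u
    have hu : ((u : Lˣ) : L) ∈ Metric.closedBall (0 : L) 1 := by
      simpa using (mem_unitBall.mp u.2).le
    obtain ⟨c, hc, huc⟩ := Set.mem_iUnion₂.mp (hcover hu)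
    exact ⟨⟨c, hc⟩, by simpa [dist_eq_norm] using huc⟩
  choose φ hφ using hex
  have := htfin.to_subtype
  refine Finite.of_injective (fun q => φ (Quotient.out q)) ?_
  intro q q' hqq
  simp only at hqq
  have h1 := hφ (Quotient.out q)
  have h2 := hφ (Quotient.out q')
  rw [hqq] at h1
  set u := (Quotient.out q : unitBall L) with hu
  set u' := (Quotient.out q' : unitBall L) with hu'
  have h3 : ‖((u : Lˣ) : L) - ((u' : Lˣ) : L)‖ < ‖P.π‖ ^ P.m / P.C := by
    have : ((u : Lˣ) : L) - ((u' : Lˣ) : L)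
        = (((u : Lˣ) : L) - (φ u' : L)) + -(((u' : Lˣ) : L) - (φ u' : L)) := by ring
    rw [this]
    refine (IsUltrametricDist.norm_add_le_max _ _).trans_lt (max_lt h1 ?_)
    rw [norm_neg]; exact h2
  have h4 : u⁻¹ * u' ∈ P.V.subgroupOf (unitBall L) := by
    rw [Subgroup.mem_subgroupOf, mem_V]
    apply P.mem_I_zero_of_norm_le
    have hun : ‖(((u : Lˣ)⁻¹ : Lˣ) : L)‖ = 1 := mem_unitBall.mp ((unitBall L).inv_mem u.2)
    have : ((((u⁻¹ * u' : unitBall L) : Lˣ)) : L) - 1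
        = (((u : Lˣ)⁻¹ : Lˣ) : L) * (((u' : Lˣ) : L) - ((u : Lˣ) : L)) := by
      simp only [Subgroup.coe_mul, Subgroup.coe_inv, Units.val_mul, mul_sub, Units.inv_mul]
    rw [this, norm_mul, hun, one_mul, norm_sub_rev]
    exact h3.le
  have := QuotientGroup.eq.mpr h4
  rw [← Quotient.out_eq q, ← Quotient.out_eq q']
  exact this

lemma relIndex_V_ne_zero : P.V.relIndex (unitBall L) ≠ 0 := by
  have := P.finite_quot_V
  have : (P.V.subgroupOf (unitBall L)).FiniteIndex := Subgroup.finiteIndex_of_finite_quotient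
  exact Subgroup.FiniteIndex.index_ne_zero

end Params

/-- **The cohomologically trivial open subgroup of the units** of a finite cyclic extension of
nonarchimedean local fields. -/
theorem exists_cohTrivial_open_subgroup (σ : L ≃ₐ[K] L) (hσ : ∀ τ, τ ∈ Subgroup.zpowers σ) :
    ∃ V : Subgroup Lˣ, V ≤ unitBall L ∧ IsOpen (V : Set Lˣ) ∧
      (∀ τ : L ≃ₐ[K] L, ∀ x ∈ V, τ • x ∈ V) ∧ V.relIndex (unitBall L) ≠ 0 ∧
      (∀ x ∈ V, σ • x = x → ∃ y ∈ V, ∏ τ : L ≃ₐ[K] L, τ • y = x) ∧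
      (∀ x ∈ V, ∏ τ : L ≃ₐ[K] L, τ • x = 1 → ∃ y ∈ V, σ • y / y = x) := by
  obtain ⟨P⟩ := exists_params K L
  refine ⟨P.V, P.V_le_unitBall, P.isOpen_V, fun τ x hx => P.smul_mem_V τ hx,
    P.relIndex_V_ne_zero, ?_, ?_⟩
  · intro x hx hσx
    exact OnePlus.onePlus_H0 P.mulFilt σ P.hG (P.hgr0 σ hσ) x hx hσx
  · intro x hx hNx
    exact OnePlus.onePlus_H1 P.mulFilt σ P.hG (P.hgr1 σ hσ) x hx hNx

end Fermat.Agent.S55.LocH28.Lattice
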