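/-
S55 / 14-LOC-H (helper28): a locally compact ultrametric normed field has a uniformizer and
`Fˣ / U_F ≃ ℤ`.  Mathlib only.
-/
import Fermat.Agent.S55.LocH28.Lattice

namespace Fermat.Agent.S55.LocH28.ValueGroup

open Fermat.Agent.S55.LocH28.Lattice

variable {F : Type*} [NormedField F] [IsUltrametricDist F] [ProperSpace F]

/-- A uniformizer: an element of maximal norm `< 1`. -/
theorem exists_uniformizer (h : ∃ x : F, 0 < ‖x‖ ∧ ‖x‖ < 1) :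
    ∃ ϖ : F, 0 < ‖ϖ‖ ∧ ‖ϖ‖ < 1 ∧ ∀ x : F, ‖x‖ < 1 → ‖x‖ ≤ ‖ϖ‖ := by
  obtain ⟨π, hπ0, hπ1⟩ := h
  set T : Set F := Metric.closedBall 0 1 ∩ (Metric.ball 0 1 ∩ {x | ‖π‖ ≤ ‖x‖}) with hT
  have hTc : IsCompact T := by
    refine (isCompact_closedBall (0 : F) 1).inter_right ?_
    exact (IsUltrametricDist.isClosed_ball (0 : F) 1).inter
      (isClosed_le continuous_const continuous_norm)
  have hTne : T.Nonempty := ⟨π, by simp [hT, hπ1.le, hπ1]⟩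
  obtain ⟨ϖ, hϖT, hmax⟩ := hTc.exists_isMaxOn hTne continuous_norm.continuousOn
  have hϖ1 : ‖ϖ‖ < 1 := by simpa using hϖT.2.1
  have hϖπ : ‖π‖ ≤ ‖ϖ‖ := hϖT.2.2
  refine ⟨ϖ, hπ0.trans_le hϖπ, hϖ1, fun x hx => ?_⟩
  by_cases hxπ : ‖π‖ ≤ ‖x‖
  · have hxT : x ∈ T := by
      refine ⟨by simpa using hx.le, by simpa using hx, hxπ⟩
    exact hmax hxT
  · exact (not_le.mp hxπ).le.trans hϖπ

omit [IsUltrametricDist F] [ProperSpace F] in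
/-- every nonzero element has norm a power of the norm of the uniformizer -/
theorem exists_zpow_norm_eq {ϖ : F} (h0 : 0 < ‖ϖ‖) (h1 : ‖ϖ‖ < 1)
    (hmax : ∀ x : F, ‖x‖ < 1 → ‖x‖ ≤ ‖ϖ‖) {x : F} (hx : x ≠ 0) :
    ∃ k : ℤ, ‖x‖ = ‖ϖ‖ ^ k := by
  have hxpos : 0 < ‖x‖ := norm_pos_iff.mpr hx
  have hinv : 1 < ‖ϖ‖⁻¹ := (one_lt_inv₀ h0).mpr h1
  obtain ⟨n, hn1, hn2⟩ := exists_mem_Ico_zpow hxpos hinv
  -- ‖ϖ‖^(-n) ≤ ‖x‖ < ‖ϖ‖^(-n-1); y = x * ϖ^n has 1 ≤ ‖y‖ < ‖ϖ‖⁻¹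
  have hϖ0 : ϖ ≠ 0 := norm_pos_iff.mp h0
  set y : F := x * ϖ ^ (n + 1) with hy
  have hyn : ‖y‖ = ‖x‖ * ‖ϖ‖ ^ (n + 1) := by rw [hy, norm_mul, norm_zpow]
  have hpos : 0 < ‖ϖ‖ ^ (n + 1) := zpow_pos h0 _
  have hy1 : ‖y‖ < 1 := by
    rw [hyn]
    have : ‖x‖ * ‖ϖ‖ ^ (n + 1) < (‖ϖ‖⁻¹) ^ (n + 1) * ‖ϖ‖ ^ (n + 1) :=
      mul_lt_mul_of_pos_right hn2 hpos
    rwa [inv_zpow, inv_mul_cancel₀ hpos.ne'] at this
  have hy2 : ‖ϖ‖ ≤ ‖y‖ := by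
    rw [hyn]
    have : (‖ϖ‖⁻¹) ^ n * ‖ϖ‖ ^ (n + 1) ≤ ‖x‖ * ‖ϖ‖ ^ (n + 1) :=
      mul_le_mul_of_nonneg_right hn1 hpos.le
    have h4 : (‖ϖ‖⁻¹) ^ n * ‖ϖ‖ ^ (n + 1) = ‖ϖ‖ := by
      rw [inv_zpow, zpow_add_one₀ h0.ne', ← mul_assoc, inv_mul_cancel₀ (zpow_pos h0 n).ne',
        one_mul]
    rwa [h4] at this
  have hyeq : ‖y‖ = ‖ϖ‖ := le_antisymm (hmax y hy1) hy2
  refine ⟨-n, ?_⟩
  have : ‖x‖ * ‖ϖ‖ ^ (n + 1) = ‖ϖ‖ := by rw [← hyn, hyeq]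
  rw [zpow_add_one₀ h0.ne', ← mul_assoc] at this
  have h3 : ‖x‖ * ‖ϖ‖ ^ n = 1 := by
    have := mul_right_cancel₀ h0.ne' (this.trans (one_mul _).symm)
    exact this
  rw [zpow_neg]
  exact eq_inv_of_mul_eq_one_left h3

/-- `Fˣ / U_F ≃ ℤ`. -/
theorem nonempty_quot_unitBall_equiv_int (h : ∃ x : F, 0 < ‖x‖ ∧ ‖x‖ < 1) :
    Nonempty ((Additive Fˣ ⧸ (unitBall F).toAddSubgroup) ≃+ ℤ) := by
  obtain ⟨ϖ, h0, h1, hmax⟩ := exists_uniformizer h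
  have hϖ0 : ϖ ≠ 0 := norm_pos_iff.mp h0
  set u : Fˣ := Units.mk0 ϖ hϖ0 with hu
  let ψ : ℤ →+ (Additive Fˣ ⧸ (unitBall F).toAddSubgroup) :=
    (QuotientAddGroup.mk' _).comp (zmultiplesHom (Additive Fˣ) (Additive.ofMul u))
  have hψ : ∀ k : ℤ, ψ k = QuotientAddGroup.mk (Additive.ofMul (u ^ k)) := by
    intro k
    simp only [ψ, AddMonoidHom.coe_comp, QuotientAddGroup.coe_mk', Function.comp_apply,
      zmultiplesHom_apply, ofMul_zpow]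
  refine ⟨(AddEquiv.ofBijective ψ ⟨?_, ?_⟩).symm⟩
  · rw [injective_iff_map_eq_zero]
    intro k hk
    rw [hψ, QuotientAddGroup.eq_zero_iff] at hk
    have hk' : ‖((u ^ k : Fˣ) : F)‖ = 1 := hk
    rw [Units.val_zpow_eq_zpow_val, norm_zpow, hu, Units.val_mk0] at hk'
    by_contra hne
    rcases lt_or_gt_of_ne hne with hlt | hgt
    · have : 1 < ‖ϖ‖ ^ k := one_lt_zpow_of_neg₀ h0 h1 hlt
      linarith
    · have : ‖ϖ‖ ^ k < 1 := zpow_lt_one₀ h0 h1 hgt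
      linarith
  · intro z
    obtain ⟨x, rfl⟩ := QuotientAddGroup.mk_surjective z
    obtain ⟨k, hk⟩ := exists_zpow_norm_eq h0 h1 hmax (Additive.toMul x).ne_zero
    refine ⟨k, ?_⟩
    rw [hψ, QuotientAddGroup.eq]
    change (u ^ k)⁻¹ * Additive.toMul x ∈ unitBall F
    rw [mem_unitBall, Units.val_mul, norm_mul, Units.val_inv_eq_inv_val, norm_inv,
      Units.val_zpow_eq_zpow_val, norm_zpow, hu, Units.val_mk0, hk]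
    exact inv_mul_cancel₀ (zpow_pos h0 k).ne'

end Fermat.Agent.S55.LocH28.ValueGroup
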