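/-
S55 / 14-LOC-H (helper28): Herbrand quotient of the multiplicative group of a finite cyclic
extension of nonarchimedean local fields: `h(U_L) = 1`, `h(Lˣ) = [L:K]`, and the local norm
index `[Kˣ : N Lˣ] = [L:K]`.
-/
import Fermat.Agent.S55.LocH28.ValueGroup
import Fermat.Agent.S55.HerbrandCyclic54

namespace Fermat.Agent.S55.LocH28.Main

open Fermat.Agent.S55.Herbrand54 Fermat.Agent.S55.HerbrandCyclic54
open Fermat.Agent.S55.LocH28.Lattice

set_option linter.unusedSectionVars false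

variable (K L : Type*) [NontriviallyNormedField K] [IsUltrametricDist K] [ProperSpace K]
  [NormedField L] [NormedAlgebra K L] [FiniteDimensional K L] [IsGalois K L]

/-- The Galois action on `Additive Lˣ`. -/
def rhoU : (L ≃ₐ[K] L) →* AddMonoid.End (Additive Lˣ) where
  toFun τ := MonoidHom.toAdditive (MulDistribMulAction.toMonoidHom Lˣ τ)
  map_one' := by
    refine AddMonoidHom.ext fun x => ?_
    change Additive.ofMul ((1 : L ≃ₐ[K] L) • Additive.toMul x) = x
    rw [one_smul]; rfl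
  map_mul' τ ρ := by
    refine AddMonoidHom.ext fun x => ?_
    change Additive.ofMul ((τ * ρ) • Additive.toMul x)
      = Additive.ofMul (τ • (ρ • Additive.toMul x))
    rw [mul_smul]

variable {K L}

lemma rhoU_apply (τ : L ≃ₐ[K] L) (x : Additive Lˣ) :
    rhoU K L τ x = Additive.ofMul (τ • Additive.toMul x) := rfl

/-- The Herbrand pair `(σ - 1, N)` of `Lˣ`. -/
noncomputable def pairL (σ : L ≃ₐ[K] L) : Pair (Additive Lˣ) := cyclicPair (rhoU K L) σ

lemma pairL_f (σ : L ≃ₐ[K] L) (x : Additive Lˣ) :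
    (pairL σ).f x = Additive.ofMul (σ • Additive.toMul x / Additive.toMul x) := rfl

lemma pairL_g (σ : L ≃ₐ[K] L) (x : Additive Lˣ) :
    (pairL σ).g x = Additive.ofMul (∏ τ : L ≃ₐ[K] L, τ • Additive.toMul x) := by
  change normHom (rhoU K L) x = _
  rw [HerbrandCyclic54.normHom_apply]
  simp only [rhoU_apply]
  rw [← ofMul_prod]

lemma smul_mem_unitBall (τ : L ≃ₐ[K] L) {u : Lˣ} (hu : u ∈ unitBall L) :
    τ • u ∈ unitBall L := by
  rw [mem_unitBall] at hu ⊢
  change ‖τ (u : L)‖ = 1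
  rw [norm_algEquiv, hu]

lemma norm_smul_units (τ : L ≃ₐ[K] L) (u : Lˣ) : ‖((τ • u : Lˣ) : L)‖ = ‖(u : L)‖ := by
  change ‖τ (u : L)‖ = _
  rw [norm_algEquiv]

/-- `U_L` as an additive subgroup of `Additive Lˣ`. -/
def U' : AddSubgroup (Additive Lˣ) := (unitBall L).toAddSubgroup

lemma mem_U' {x : Additive Lˣ} : x ∈ U' (L := L) ↔ ‖((Additive.toMul x : Lˣ) : L)‖ = 1 := Iff.rfl

lemma pairL_f_mem_U' (σ : L ≃ₐ[K] L) (x : Additive Lˣ) : (pairL σ).f x ∈ U' (L := L) := by
  rw [pairL_f, mem_U', toMul_ofMul, Units.val_div_eq_div_val, norm_div, norm_smul_units]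
  exact div_self (norm_ne_zero_iff.mpr (Units.ne_zero _))

lemma norm_prod_smul (u : Lˣ) :
    ‖((∏ τ : L ≃ₐ[K] L, τ • u : Lˣ) : L)‖ = ‖(u : L)‖ ^ Fintype.card (L ≃ₐ[K] L) := by
  rw [Units.coe_prod, norm_prod]
  simp only [norm_smul_units]
  rw [Finset.prod_const, Finset.card_univ]

lemma pairL_g_mem_U' (σ : L ≃ₐ[K] L) (x : Additive Lˣ) (hx : x ∈ U' (L := L)) :
    (pairL σ).g x ∈ U' (L := L) := by
  rw [pairL_g, mem_U', toMul_ofMul, norm_prod_smul, mem_U'.mp hx, one_pow]

/-- The Herbrand pair of the unit group `U_L`. -/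
noncomputable def pairU (σ : L ≃ₐ[K] L) : Pair (U' (L := L)) :=
  (pairL σ).restrict U' (fun x _ => pairL_f_mem_U' σ x) (pairL_g_mem_U' σ)

/-- The Herbrand pair of the value group `Lˣ / U_L`. -/
noncomputable def pairQ (σ : L ≃ₐ[K] L) : Pair (Additive Lˣ ⧸ U' (L := L)) :=
  (pairL σ).quot U' (fun x _ => pairL_f_mem_U' σ x) (pairL_g_mem_U' σ)

/-- `0 → U_L → Lˣ → Lˣ/U_L → 0`. -/
noncomputable def sesL (σ : L ≃ₐ[K] L) : Pair.SES (pairU σ) (pairL σ) (pairQ σ) :=
  (pairL σ).sesRestrict U' (fun x _ => pairL_f_mem_U' σ x) (pairL_g_mem_U' σ)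

/-- a pair with trivial `H0` and `H1` is defined with Herbrand quotient one -/
lemma isDefined_q_of_subsingleton {A : Type*} [AddCommGroup A] (P : Pair A)
    (h0 : Subsingleton P.H0) (h1 : Subsingleton P.H1) : P.IsDefined ∧ P.q = 1 := by
  refine ⟨⟨inferInstance, inferInstance⟩, ?_⟩
  unfold Pair.q
  rw [Nat.card_of_subsingleton (0 : P.H0), Nat.card_of_subsingleton (0 : P.H1)]
  norm_num

/-- **`h(U_L) = 1`.** -/
theorem pairU_isDefined_q (σ : L ≃ₐ[K] L) (hσ : ∀ τ, τ ∈ Subgroup.zpowers σ) :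
    (pairU σ).IsDefined ∧ (pairU σ).q = 1 := by
  obtain ⟨V, hVU, -, hVG, hVidx, hH0, hH1⟩ := exists_cohTrivial_open_subgroup σ hσ
  -- the subgroup `V` inside `U'`
  set A' : AddSubgroup (U' (L := L)) := V.toAddSubgroup.addSubgroupOf U' with hA'
  have hmemA' : ∀ x : U' (L := L), x ∈ A' ↔ Additive.toMul (x : Additive Lˣ) ∈ V := fun x => Iff.rfl
  have hidx : A'.index ≠ 0 := by
    have : V.toAddSubgroup.relIndex (unitBall L).toAddSubgroup = V.relIndex (unitBall L) :=
      Subgroup.relIndex_toAddSubgroup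
    rw [hA']
    change V.toAddSubgroup.relIndex (unitBall L).toAddSubgroup ≠ 0
    rw [this]; exact hVidx
  have : A'.FiniteIndex := ⟨hidx⟩
  have hfA' : ∀ x ∈ A', (pairU σ).f x ∈ A' := by
    intro x hx
    rw [hmemA'] at hx ⊢
    change Additive.toMul ((pairL σ).f (x : Additive Lˣ)) ∈ V
    rw [pairL_f, toMul_ofMul]
    exact V.div_mem (hVG σ _ hx) hx
  have hgA' : ∀ x ∈ A', (pairU σ).g x ∈ A' := by
    intro x hx
    rw [hmemA'] at hx ⊢
    change Additive.toMul ((pairL σ).g (x : Additive Lˣ)) ∈ V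
    rw [pairL_g, toMul_ofMul]
    exact V.prod_mem (fun τ _ => hVG τ _ hx)
  set R := (pairU σ).restrict A' hfA' hgA' with hR
  have h0 : Subsingleton R.H0 := by
    refine subsingleton_of_forall_eq 0 fun z => ?_
    obtain ⟨x, hx, rfl⟩ := R.cls_surj z
    rw [Pair.cls_eq_zero_iff]
    have hxV : Additive.toMul ((x : U' (L := L)) : Additive Lˣ) ∈ V := x.2
    have hfx : (pairL σ).f ((x : U' (L := L)) : Additive Lˣ) = 0 := by
      have := congrArg (fun t : A' => ((t : U' (L := L)) : Additive Lˣ)) hx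
      exact this
    rw [pairL_f] at hfx
    have hσx : σ • Additive.toMul ((x : U' (L := L)) : Additive Lˣ)
        = Additive.toMul ((x : U' (L := L)) : Additive Lˣ) := by
      have : σ • Additive.toMul ((x : U' (L := L)) : Additive Lˣ)
          / Additive.toMul ((x : U' (L := L)) : Additive Lˣ) = 1 := hfx
      exact div_eq_one.mp this
    obtain ⟨y, hyV, hy⟩ := hH0 _ hxV hσx
    refine ⟨⟨⟨Additive.ofMul y, hVU hyV⟩, hyV⟩, ?_⟩
    apply Subtype.ext; apply Subtype.ext
    change (pairL σ).g (Additive.ofMul y) = _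
    rw [pairL_g, toMul_ofMul, hy]; rfl
  have h1 : Subsingleton R.H1 := by
    refine subsingleton_of_forall_eq 0 fun z => ?_
    obtain ⟨x, hx, rfl⟩ := R.swap.cls_surj z
    rw [Pair.cls_eq_zero_iff]
    have hxV : Additive.toMul ((x : U' (L := L)) : Additive Lˣ) ∈ V := x.2
    have hgx : (pairL σ).g ((x : U' (L := L)) : Additive Lˣ) = 0 := by
      have := congrArg (fun t : A' => ((t : U' (L := L)) : Additive Lˣ)) hx
      exact this
    rw [pairL_g] at hgx
    have hNx : ∏ τ : L ≃ₐ[K] L, τ • Additive.toMul ((x : U' (L := L)) : Additive Lˣ) = 1 := hgx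
    obtain ⟨y, hyV, hy⟩ := hH1 _ hxV hNx
    refine ⟨⟨⟨Additive.ofMul y, hVU hyV⟩, hyV⟩, ?_⟩
    apply Subtype.ext; apply Subtype.ext
    change (pairL σ).f (Additive.ofMul y) = _
    rw [pairL_f, toMul_ofMul, hy]; rfl
  obtain ⟨hRdef, hRq⟩ := isDefined_q_of_subsingleton R h0 h1
  have hUdef : (pairU σ).IsDefined := ((pairU σ).isDefined_restrict_iff A' hfA' hgA').1 hRdef
  exact ⟨hUdef, by rw [← (pairU σ).q_restrict A' hfA' hgA' hUdef]; exact hRq⟩

lemma exists_norm_lt_one' (K L : Type*) [NontriviallyNormedField K] [NormedField L]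
    [NormedAlgebra K L] : ∃ x : L, 0 < ‖x‖ ∧ ‖x‖ < 1 := by
  obtain ⟨π, h0, h1⟩ := NormedField.exists_norm_lt_one K
  exact ⟨algebraMap K L π, by rwa [norm_algebraMap'], by rwa [norm_algebraMap']⟩

/-- the trivial action on the value group -/
def rhoTriv : (L ≃ₐ[K] L) →* AddMonoid.End (Additive Lˣ ⧸ U' (L := L)) := 1

lemma pairQ_f_eq (σ : L ≃ₐ[K] L) : (pairQ σ).f = (cyclicPair (rhoTriv (K := K) (L := L)) σ).f := by
  refine QuotientAddGroup.addMonoidHom_ext _ (AddMonoidHom.ext fun x => ?_)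
  change ((QuotientAddGroup.mk ((pairL σ).f x) : Additive Lˣ ⧸ U' (L := L)))
    = (cyclicPair (rhoTriv (K := K) (L := L)) σ).f (QuotientAddGroup.mk x)
  rw [cyclicPair_f_of_trivial _ _ (fun _ _ => rfl), QuotientAddGroup.eq_zero_iff]
  exact pairL_f_mem_U' σ x

lemma pairQ_g_eq (σ : L ≃ₐ[K] L) : (pairQ σ).g = (cyclicPair (rhoTriv (K := K) (L := L)) σ).g := by
  refine QuotientAddGroup.addMonoidHom_ext _ (AddMonoidHom.ext fun x => ?_)
  change ((QuotientAddGroup.mk ((pairL σ).g x) : Additive Lˣ ⧸ U' (L := L)))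
    = (cyclicPair (rhoTriv (K := K) (L := L)) σ).g (QuotientAddGroup.mk x)
  rw [cyclicPair_g_of_trivial _ _ (fun _ _ => rfl), ← QuotientAddGroup.mk_nsmul,
    QuotientAddGroup.eq, pairL_g, mem_U']
  change ‖(((∏ τ : L ≃ₐ[K] L, τ • Additive.toMul x)⁻¹
    * (Additive.toMul x) ^ Fintype.card (L ≃ₐ[K] L) : Lˣ) : L)‖ = 1
  rw [Units.val_mul, norm_mul, Units.val_inv_eq_inv_val, norm_inv, norm_prod_smul, Units.val_pow_eq_pow_val,
    norm_pow]
  exact inv_mul_cancel₀ (pow_ne_zero _ (norm_ne_zero_iff.mpr (Units.ne_zero _)))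

/-- **`h(Lˣ/U_L) = [L:K]`.** -/
theorem pairQ_isDefined_q (σ : L ≃ₐ[K] L) :
    (pairQ σ).IsDefined ∧ (pairQ σ).q = Nat.card (L ≃ₐ[K] L) := by
  have := isUltrametricDist K L
  have := properSpace K L
  obtain ⟨e⟩ := ValueGroup.nonempty_quot_unitBall_equiv_int (F := L) (exists_norm_lt_one' K L)
  have hf := pairQ_f_eq (K := K) σ
  have hg := pairQ_g_eq (K := K) σ
  have hdef := isDefined_of_trivial_int (rhoTriv (K := K) (L := L)) σ (fun _ _ => rfl) e
  have hq := q_of_trivial_int (rhoTriv (K := K) (L := L)) σ (fun _ _ => rfl) e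
  have h1 := congrArg AddMonoidHom.ker hf
  have h2 := congrArg AddMonoidHom.range hg
  have h3 := congrArg AddMonoidHom.ker hg
  have h4 := congrArg AddMonoidHom.range hf
  refine ⟨(isDefined_congr _ _ h1 h2 h3 h4).2 hdef, ?_⟩
  rw [q_congr _ _ h1 h2 h3 h4]
  exact hq

/-- **`h(Lˣ) = [L:K]`.** -/
theorem pairL_isDefined_q (σ : L ≃ₐ[K] L) (hσ : ∀ τ, τ ∈ Subgroup.zpowers σ) :
    (pairL σ).IsDefined ∧ (pairL σ).q = Nat.card (L ≃ₐ[K] L) := by
  obtain ⟨hU, hUq⟩ := pairU_isDefined_q σ hσ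
  obtain ⟨hQ, hQq⟩ := pairQ_isDefined_q (K := K) σ
  refine ⟨(sesL σ).isDefined_mid hU hQ, ?_⟩
  rw [(sesL σ).q_mul hU hQ, hUq, hQq, one_mul]

end Fermat.Agent.S55.LocH28.Main

namespace Fermat.Agent.S55.LocH28.Main

open Fermat.Agent.S55.Herbrand54 Fermat.Agent.S55.HerbrandCyclic54
open Fermat.Agent.S55.LocH28.Lattice

/-! ### Results using Mathlib's cyclic Hilbert 90 (stated there in universe `0`, which is the
universe of all local fields `⊆ PadicAlgCl q`). -/

variable {K L : Type} [NontriviallyNormedField K] [IsUltrametricDist K] [ProperSpace K]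
  [NormedField L] [NormedAlgebra K L] [FiniteDimensional K L] [IsGalois K L]

/-- Hilbert 90: `H^1(G, Lˣ) = 0`. -/
theorem subsingleton_pairL_H1 (σ : L ≃ₐ[K] L) (hσ : ∀ τ, τ ∈ Subgroup.zpowers σ) :
    Subsingleton (pairL σ).H1 := by
  refine subsingleton_of_forall_eq 0 fun z => ?_
  obtain ⟨x, hx, rfl⟩ := (pairL σ).swap.cls_surj z
  rw [Pair.cls_eq_zero_iff]
  have hgx : (pairL σ).g x = 0 := hx
  rw [pairL_g] at hgx
  have hN : ∏ τ : L ≃ₐ[K] L, τ • Additive.toMul x = 1 := hgx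
  have hnorm : Algebra.norm K ((Additive.toMul x : Lˣ) : L) = 1 := by
    apply (algebraMap K L).injective
    rw [Algebra.norm_eq_prod_automorphisms, map_one]
    have := congrArg (fun u : Lˣ => (u : L)) hN
    simp only [Units.coe_prod, Units.val_one] at this
    exact this
  have : IsCyclic (L ≃ₐ[K] L) := ⟨σ, hσ⟩
  obtain ⟨y, hy⟩ := groupCohomology.exists_div_of_norm_eq_one hσ hnorm
  refine ⟨Additive.ofMul y⁻¹, ?_⟩
  change (pairL σ).f (Additive.ofMul y⁻¹) = x
  rw [pairL_f, toMul_ofMul]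
  have hxx : x = Additive.ofMul (Additive.toMul x) := rfl
  rw [hxx]
  apply congrArg Additive.ofMul
  apply Units.ext
  rw [← hy]
  simp only [smul_inv', Units.val_div_eq_div_val, inv_div_inv]
  rfl

/-- `|Ĥ^0(G, Lˣ)| = [L:K]`. -/
theorem card_pairL_H0 (σ : L ≃ₐ[K] L) (hσ : ∀ τ, τ ∈ Subgroup.zpowers σ) :
    Nat.card (pairL σ).H0 = Module.finrank K L := by
  obtain ⟨hdef, hq⟩ := pairL_isDefined_q σ hσ
  have h1 := subsingleton_pairL_H1 σ hσ
  unfold Pair.q at hq
  rw [Nat.card_of_subsingleton (0 : (pairL σ).H1), Nat.cast_one, div_one] at hq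
  have : Nat.card (pairL σ).H0 = Nat.card (L ≃ₐ[K] L) := by exact_mod_cast hq
  rw [this, IsGalois.card_aut_eq_finrank]

/-- `Kˣ → Ĥ^0(G, Lˣ)` -/
noncomputable def psiK (σ : L ≃ₐ[K] L) : Additive Kˣ →+ (pairL σ).H0 :=
  (QuotientAddGroup.mk' (pairL σ).B0).comp
    ((MonoidHom.toAdditive (Units.map (algebraMap K L : K →* L))).codRestrict (pairL σ).f.ker
      (fun a => by
        rw [AddMonoidHom.mem_ker, pairL_f]
        change Additive.ofMul _ = Additive.ofMul 1
        apply congrArg Additive.ofMul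
        rw [div_eq_one]
        apply Units.ext
        change σ (algebraMap K L ((Additive.toMul a : Kˣ) : K)) = algebraMap K L _
        exact σ.commutes _))

lemma psiK_apply (σ : L ≃ₐ[K] L) (a : Additive Kˣ) (h) :
    psiK σ a = (pairL σ).cls
      (Additive.ofMul (Units.map (algebraMap K L : K →* L) (Additive.toMul a))) h := rfl

lemma psiK_surjective (σ : L ≃ₐ[K] L) (hσ : ∀ τ, τ ∈ Subgroup.zpowers σ) :
    Function.Surjective (psiK σ) := by
  intro z
  obtain ⟨x, hx, rfl⟩ := (pairL σ).cls_surj z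
  have hfx := hx
  rw [pairL_f] at hfx
  have hσx : σ • Additive.toMul x = Additive.toMul x := div_eq_one.mp hfx
  have hfix : ∀ τ : L ≃ₐ[K] L, τ ((Additive.toMul x : Lˣ) : L) = ((Additive.toMul x : Lˣ) : L) := by
    intro τ
    have hle : Subgroup.zpowers σ ≤ MulAction.stabilizer (L ≃ₐ[K] L) (Additive.toMul x) := by
      rw [Subgroup.zpowers_le]; exact hσx
    have := hle (hσ τ)
    exact congrArg (fun u : Lˣ => (u : L)) this
  obtain ⟨a, ha⟩ := (IsGalois.mem_range_algebraMap_iff_fixed (F := K) _).mpr hfix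
  have ha0 : a ≠ 0 := by
    rintro rfl
    rw [map_zero] at ha
    exact (Units.ne_zero (Additive.toMul x)) ha.symm
  refine ⟨Additive.ofMul (Units.mk0 a ha0), ?_⟩
  have hx' : x = Additive.ofMul (Units.map (algebraMap K L : K →* L)
      (Additive.toMul (Additive.ofMul (Units.mk0 a ha0)))) := by
    have hxx : x = Additive.ofMul (Additive.toMul x) := rfl
    rw [hxx]
    apply congrArg Additive.ofMul
    apply Units.ext
    exact ha.symm
  subst hx'
  rfl

lemma psiK_ker (σ : L ≃ₐ[K] L) :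
    (psiK σ).ker = (Units.map (Algebra.norm K : L →* K)).range.toAddSubgroup := by
  ext a
  have hmem : a ∈ (Units.map (Algebra.norm K : L →* K)).range.toAddSubgroup
      ↔ ∃ y : Lˣ, Units.map (Algebra.norm K : L →* K) y = Additive.toMul a := Iff.rfl
  rw [hmem, AddMonoidHom.mem_ker]
  have h0 : (pairL σ).f (Additive.ofMul (Units.map (algebraMap K L : K →* L)
      (Additive.toMul a))) = 0 := by
    rw [pairL_f]
    change Additive.ofMul _ = Additive.ofMul 1
    apply congrArg Additive.ofMul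
    rw [div_eq_one]
    apply Units.ext
    change σ (algebraMap K L ((Additive.toMul a : Kˣ) : K)) = algebraMap K L _
    exact σ.commutes _
  rw [psiK_apply σ a h0, Pair.cls_eq_zero_iff]
  constructor
  · rintro ⟨y, hy⟩
    refine ⟨Additive.toMul y, ?_⟩
    rw [pairL_g] at hy
    have hy' : ∏ τ : L ≃ₐ[K] L, τ • Additive.toMul y
        = Units.map (algebraMap K L : K →* L) (Additive.toMul a) := hy
    apply Units.ext
    apply (algebraMap K L).injective
    change algebraMap K L (Algebra.norm K ((Additive.toMul y : Lˣ) : L)) = _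
    rw [Algebra.norm_eq_prod_automorphisms]
    have := congrArg (fun u : Lˣ => (u : L)) hy'
    simp only [Units.coe_prod] at this
    exact this
  · rintro ⟨y, hy⟩
    refine ⟨Additive.ofMul y, ?_⟩
    rw [pairL_g, toMul_ofMul]
    apply congrArg Additive.ofMul
    apply Units.ext
    rw [← hy, Units.coe_prod]
    change ∏ τ : L ≃ₐ[K] L, τ (y : L) = algebraMap K L (Algebra.norm K (y : L))
    rw [Algebra.norm_eq_prod_automorphisms]

/-- **Local norm index**: `[Kˣ : N_{L/K} Lˣ] = [L:K]` for a finite cyclic extension of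
nonarchimedean local fields. -/
theorem card_units_quot_norm_range (σ : L ≃ₐ[K] L) (hσ : ∀ τ, τ ∈ Subgroup.zpowers σ) :
    Nat.card (Kˣ ⧸ (Units.map (Algebra.norm K : L →* K)).range) = Module.finrank K L := by
  rw [← card_pairL_H0 σ hσ, ← Subgroup.index_eq_card, ← Subgroup.index_toAddSubgroup,
    ← psiK_ker σ, AddSubgroup.index_ker, AddMonoidHom.range_eq_top.mpr (psiK_surjective σ hσ)]
  exact Nat.card_congr AddSubgroup.topEquiv.toEquiv

/-- same statement with `IsCyclic` instead of a chosen generator -/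
theorem card_units_quot_norm_range' [IsCyclic (L ≃ₐ[K] L)] :
    Nat.card (Kˣ ⧸ (Units.map (Algebra.norm K : L →* K)).range) = Module.finrank K L := by
  obtain ⟨σ, hσ⟩ := IsCyclic.exists_generator (α := L ≃ₐ[K] L)
  exact card_units_quot_norm_range σ hσ

end Fermat.Agent.S55.LocH28.Main
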